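import Mathlib.Analysis.SpecificLimits.Basic
import Mathlib.Data.Nat.Factorization.Basic
import Mathlib.Tactic

/-!
# The theorem of Goldbach and Euler on perfect powers

Every `a ≥ 2` is uniquely a power of a number which is no perfect power, so the double series of
`a ^ (-k)` over `a, k ≥ 2` is also the sum of `1 / (x - 1)` over the perfect powers `x`.
-/

set_option autoImplicit false

open Filter Topology Finset

namespace FA.EulerSeries

/-- At least `2` and no perfect power. -/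
def IsRootNumber (y : ℕ) : Prop := 2 ≤ y ∧ ∀ z k : ℕ, 2 ≤ k → z ^ k ≠ y

theorem exists_root (a : ℕ) (ha : 2 ≤ a) : ∃ y j : ℕ, IsRootNumber y ∧ y ^ (j + 1) = a := by
  induction a using Nat.strong_induction_on with
  | _ a ih =>
    by_cases h : ∀ z k : ℕ, 2 ≤ k → z ^ k ≠ a
    · exact ⟨a, 0, ⟨ha, h⟩, pow_one a⟩
    · simp only [not_forall, not_not, exists_prop] at h
      obtain ⟨z, k, hk, rfl⟩ := h
      have hz : 2 ≤ z := by
        by_contra hz
        interval_cases z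
        · rw [zero_pow (by omega)] at ha
          omega
        · rw [one_pow] at ha
          omega
      have hlt : z < z ^ k := lt_self_pow₀ (by omega) (by omega)
      obtain ⟨y, j, hy, rfl⟩ := ih z hlt hz
      refine ⟨y, (j + 1) * k - 1, hy, ?_⟩
      rw [← pow_mul]
      congr 1
      have : 1 ≤ (j + 1) * k := Nat.one_le_iff_ne_zero.2 (Nat.mul_ne_zero (by omega) (by omega))
      omega

theorem root_unique {y z i j : ℕ} (hy : IsRootNumber y) (hz : IsRootNumber z)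
    (h : y ^ (i + 1) = z ^ (j + 1)) : y = z ∧ i = j := by
  obtain ⟨c, hc1, hc2⟩ := Nat.exists_eq_pow_of_pow_eq_pow (Or.inl (Nat.succ_ne_zero i)) h
  set g := Nat.gcd (i + 1) (j + 1)
  have hg : 0 < g := Nat.gcd_pos_of_pos_left _ (Nat.succ_pos i)
  have hi : (i + 1) / g = 1 := by
    have h1 : (i + 1) / g < 2 := not_le.1 fun h2 => hz.2 c _ h2 hc2.symm
    have : 0 < (i + 1) / g := Nat.div_pos (Nat.gcd_le_left _ (Nat.succ_pos i)) hg
    omega
  have hj : (j + 1) / g = 1 := by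
    have h1 : (j + 1) / g < 2 := not_le.1 fun h2 => hy.2 c _ h2 hc1.symm
    have : 0 < (j + 1) / g := Nat.div_pos (Nat.gcd_le_right _ (Nat.succ_pos j)) hg
    omega
  rw [hi] at hc2
  rw [hj] at hc1
  have ei := Nat.eq_mul_of_div_eq_left (Nat.gcd_dvd_left (i + 1) (j + 1)) hi
  have ej := Nat.eq_mul_of_div_eq_left (Nat.gcd_dvd_right (i + 1) (j + 1)) hj
  exact ⟨hc1.trans hc2.symm, by omega⟩

/-- Every `a ≥ 2` as a root number with an exponent. -/
noncomputable def powEquiv : {y // IsRootNumber y} × ℕ ≃ ℕ :=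
  Equiv.ofBijective (fun p => p.1.1 ^ (p.2 + 1) - 2) <| by
    have h2 : ∀ p : {y // IsRootNumber y} × ℕ, 2 ≤ p.1.1 ^ (p.2 + 1) := fun p =>
      p.1.2.1.trans (Nat.le_self_pow (Nat.succ_ne_zero _) _)
    refine ⟨fun p q h => ?_, fun n => ?_⟩
    · have := h2 p
      have := h2 q
      simp only at h
      obtain ⟨e1, e2⟩ := root_unique p.1.2 q.1.2 (show p.1.1 ^ (p.2 + 1) = q.1.1 ^ (q.2 + 1) by
        omega)
      exact Prod.ext (Subtype.ext e1) e2
    · obtain ⟨y, j, hy, e⟩ := exists_root (n + 2) (by omega)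
      exact ⟨(⟨y, hy⟩, j), by simp [e]⟩

/-- A perfect power as a root number with an exponent. -/
noncomputable def perfectEquiv :
    {y // IsRootNumber y} × ℕ ≃ {x : ℕ // ∃ a k, 2 ≤ a ∧ 2 ≤ k ∧ x = a ^ k} :=
  Equiv.ofBijective
    (fun p => ⟨p.1.1 ^ (p.2 + 2), p.1.1, p.2 + 2, p.1.2.1, by omega, rfl⟩) <| by
    refine ⟨fun p q h => ?_, fun x => ?_⟩
    · obtain ⟨e1, e2⟩ := root_unique (i := p.2 + 1) (j := q.2 + 1) p.1.2 q.1.2
        (congrArg Subtype.val h)
      exact Prod.ext (Subtype.ext e1) (by omega)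
    · obtain ⟨x, a, k, ha, hk, rfl⟩ := x
      obtain ⟨y, j, hy, rfl⟩ := exists_root a ha
      have : 2 ≤ (j + 1) * k := hk.trans (Nat.le_mul_of_pos_left k (Nat.succ_pos j))
      refine ⟨(⟨y, hy⟩, (j + 1) * k - 2), Subtype.ext ?_⟩
      show y ^ ((j + 1) * k - 2 + 2) = (y ^ (j + 1)) ^ k
      rw [← pow_mul]
      congr 1
      omega

theorem hasSum_geometric_inv {x : ℝ} (hx : 1 < x) :
    HasSum (fun k : ℕ => (x ^ (k + 1))⁻¹) (1 / (x - 1)) := by
  have h := (hasSum_geometric_of_lt_one (by positivity) (inv_lt_one_of_one_lt₀ hx)).mul_left x⁻¹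
  have h0 : x ≠ 0 := by positivity
  have h1 : x - 1 ≠ 0 := by linarith
  convert! h using 1
  · ext k
    rw [pow_succ', mul_inv, inv_pow]
  · field_simp

theorem hasSum_double :
    HasSum (fun p : ℕ × ℕ => (((p.1 : ℝ) + 2) ^ (p.2 + 2))⁻¹) 1 := by
  have hrow : ∀ a : ℕ, HasSum (fun k : ℕ => (((a : ℝ) + 2) ^ (k + 2))⁻¹)
      (1 / ((a : ℝ) + 1) - 1 / ((a : ℝ) + 2)) := by
    intro a
    have h := (hasSum_geometric_inv (x := (a : ℝ) + 2)
      (by linarith [Nat.cast_nonneg (α := ℝ) a])).mul_left ((a : ℝ) + 2)⁻¹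
    convert! h using 1
    · ext k
      rw [pow_succ', mul_inv]
    · rw [show (a : ℝ) + 2 - 1 = a + 1 by ring]
      field_simp
      ring
  have hcol : HasSum (fun a : ℕ => 1 / ((a : ℝ) + 1) - 1 / ((a : ℝ) + 2)) 1 := by
    rw [hasSum_iff_tendsto_nat_of_nonneg fun a =>
      sub_nonneg.2 (one_div_le_one_div_of_le (by positivity) (by linarith))]
    have h : ∀ N : ℕ, ∑ a ∈ range N, (1 / ((a : ℝ) + 1) - 1 / ((a : ℝ) + 2)) =
        1 - 1 / ((N : ℝ) + 1) := by
      intro N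
      induction N with
      | zero => simp
      | succ N ih =>
        rw [sum_range_succ, ih]
        push_cast
        ring
    simp_rw [h]
    simpa using (tendsto_const_nhds (x := (1 : ℝ))).sub tendsto_one_div_add_atTop_nhds_zero_nat
  have hsum : Summable fun p : ℕ × ℕ => (((p.1 : ℝ) + 2) ^ (p.2 + 2))⁻¹ :=
    (summable_prod_of_nonneg fun p => by positivity).2
      ⟨fun a => (hrow a).summable, hcol.summable.congr fun a => (hrow a).tsum_eq.symm⟩
  rw [hcol.unique (hsum.hasSum.prod_fiberwise hrow)]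
  exact hsum.hasSum

theorem goldbach_euler :
    HasSum (fun x : {x : ℕ // ∃ a k, 2 ≤ a ∧ 2 ≤ k ∧ x = a ^ k} => 1 / ((x : ℝ) - 1)) 1 := by
  rw [← perfectEquiv.hasSum_iff]
  have h : HasSum (fun p : ({y // IsRootNumber y} × ℕ) × ℕ =>
      (((p.1.1.1 : ℝ) ^ (p.1.2 + 2)) ^ (p.2 + 1))⁻¹) 1 := by
    have hd := (powEquiv.prodCongr (Equiv.refl ℕ)).hasSum_iff.2 hasSum_double
    let e : ({y // IsRootNumber y} × ℕ) × ℕ ≃ ({y // IsRootNumber y} × ℕ) × ℕ :=
      { toFun := fun p => ((p.1.1, p.2), p.1.2)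
        invFun := fun p => ((p.1.1, p.2), p.1.2)
        left_inv := fun _ => rfl
        right_inv := fun _ => rfl }
    convert! e.hasSum_iff.2 hd using 1
    ext ⟨⟨⟨y, hy⟩, d⟩, j⟩
    have h2 : 2 ≤ y ^ (j + 1) := hy.1.trans (Nat.le_self_pow (Nat.succ_ne_zero j) y)
    simp [e, powEquiv, Nat.cast_sub h2, ← pow_mul, mul_comm]
  refine h.prod_fiberwise fun p => ?_
  have h1 : (1 : ℝ) < (p.1.1 : ℝ) ^ (p.2 + 2) :=
    one_lt_pow₀ (by exact_mod_cast (show 1 < p.1.1 from p.1.2.1)) (by omega)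
  convert! hasSum_geometric_inv h1 using 1
  simp [perfectEquiv]

end FA.EulerSeries
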