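import Mathlib.Algebra.Order.Antidiag.Prod
import Mathlib.Analysis.PSeries
import Mathlib.NumberTheory.Harmonic.Bounds
import Mathlib.NumberTheory.LSeries.RiemannZeta
import Mathlib.Tactic

/-!
# Euler's sum `∑ H n / n ^ 2 = 2 ζ 3`

Both sides come from `∑ 1 / (a b (a + b))`, summed first over `b`, and after the splitting
`1 / (a b (a + b)) = 1 / (a (a + b) ^ 2) + 1 / (b (a + b) ^ 2)` over the antidiagonals.
-/

set_option autoImplicit false

open Filter Topology Finset

namespace FA.EulerSeries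

theorem hasSum_telescope (a : ℕ) :
    HasSum (fun b : ℕ => 1 / ((b : ℝ) + 1 + a) - 1 / ((b : ℝ) + 2 + a)) (1 / ((a : ℝ) + 1)) := by
  have hnn : ∀ b : ℕ, 0 ≤ 1 / ((b : ℝ) + 1 + a) - 1 / ((b : ℝ) + 2 + a) := fun b =>
    sub_nonneg.2 (one_div_le_one_div_of_le (by positivity) (by linarith))
  rw [hasSum_iff_tendsto_nat_of_nonneg hnn]
  have h : ∀ N : ℕ, ∑ b ∈ range N, (1 / ((b : ℝ) + 1 + a) - 1 / ((b : ℝ) + 2 + a)) =
      1 / ((a : ℝ) + 1) - 1 / ((N : ℝ) + 1 + a) := by
    intro N
    induction N with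
    | zero => simp [add_comm]
    | succ N ih =>
      rw [sum_range_succ, ih]
      push_cast
      ring
  simp_rw [h]
  have h0 : Tendsto (fun N : ℕ => 1 / ((N : ℝ) + 1 + a)) atTop (𝓝 0) :=
    tendsto_const_nhds.div_atTop (tendsto_atTop_add_const_right _ _
      (tendsto_atTop_add_const_right _ _ tendsto_natCast_atTop_atTop))
  simpa using (tendsto_const_nhds (x := 1 / ((a : ℝ) + 1))).sub h0

theorem hasSum_shift (a : ℕ) :
    HasSum (fun b : ℕ => 1 / ((b : ℝ) + 1) - 1 / ((b : ℝ) + 1 + a)) (harmonic a : ℝ) := by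
  induction a with
  | zero => simp
  | succ a ih =>
    convert! ih.add (hasSum_telescope a) using 1
    · ext b
      push_cast
      ring
    · rw [harmonic_succ]
      push_cast
      ring

/-- `1 / (a b (a + b))`. -/
noncomputable def sym (p : ℕ × ℕ) : ℝ :=
  1 / (((p.1 : ℝ) + 1) * ((p.2 : ℝ) + 1) * ((p.1 : ℝ) + p.2 + 2))

/-- `1 / (a (a + b) ^ 2)`. -/
noncomputable def half (p : ℕ × ℕ) : ℝ := 1 / (((p.1 : ℝ) + 1) * ((p.1 : ℝ) + p.2 + 2) ^ 2)

theorem hasSum_row (a : ℕ) :
    HasSum (fun b => sym (a, b)) ((harmonic (a + 1) : ℝ) / ((a : ℝ) + 1) ^ 2) := by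
  convert! (hasSum_shift (a + 1)).div_const (((a : ℝ) + 1) ^ 2) using 1
  ext b
  simp only [sym]
  push_cast
  field_simp
  ring

theorem summable_harmonic_sq :
    Summable fun a : ℕ => (harmonic (a + 1) : ℝ) / ((a : ℝ) + 1) ^ 2 := by
  refine Summable.of_nonneg_of_le (fun a => ?_) (fun a => ?_)
    (((Real.summable_one_div_nat_add_rpow 1 (3 / 2)).2 (by norm_num)).mul_left 3)
  · exact (hasSum_row a).nonneg fun b => by unfold sym; positivity
  · rw [abs_of_nonneg (by positivity)]
    set x : ℝ := (a : ℝ) + 1 with hx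
    have hx1 : 1 ≤ x := by
      rw [hx]
      linarith [Nat.cast_nonneg (α := ℝ) a]
    have hH : (harmonic (a + 1) : ℝ) ≤ 3 * x ^ (1 / 2 : ℝ) := by
      have h1 := harmonic_le_one_add_log (a + 1)
      have h2 := Real.log_le_rpow_div (zero_le_one.trans hx1) (show (0 : ℝ) < 1 / 2 by norm_num)
      have h3 := Real.one_le_rpow hx1 (show (0 : ℝ) ≤ 1 / 2 by norm_num)
      rw [Nat.cast_add, Nat.cast_one, ← hx] at h1
      linarith
    rw [div_le_iff₀ (by positivity)]
    refine hH.trans_eq ?_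
    rw [← Real.rpow_natCast x 2, mul_assoc, one_div_mul_eq_div,
      ← Real.rpow_sub (by positivity)]
    norm_num

theorem summable_sym : Summable sym :=
  (summable_prod_of_nonneg fun p => by unfold sym; positivity).2
    ⟨fun a => (hasSum_row a).summable,
      summable_harmonic_sq.congr fun a => (hasSum_row a).tsum_eq.symm⟩

theorem half_le (p : ℕ × ℕ) : half p ≤ sym p := by
  unfold half sym
  refine one_div_le_one_div_of_le (by positivity) ?_
  rw [sq, ← mul_assoc]
  refine mul_le_mul_of_nonneg_right (mul_le_mul_of_nonneg_left ?_ (by positivity)) (by positivity)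
  linarith [Nat.cast_nonneg (α := ℝ) p.1]

theorem hasSum_half_diagonals :
    HasSum (fun m : ℕ => (harmonic (m + 1) : ℝ) / ((m : ℝ) + 2) ^ 2) (∑' p, half p) := by
  have hsum : Summable half :=
    Summable.of_nonneg_of_le (fun p => by unfold half; positivity) half_le summable_sym
  have h := (Finset.HasAntidiagonal.sigmaAntidiagonalEquivProd.hasSum_iff.2 hsum.hasSum).sigma
    fun m => hasSum_fintype _
  refine h.congr_fun fun m => ?_
  show _ = ∑ x : Finset.HasAntidiagonal.antidiagonal m, half x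
  rw [Finset.sum_coe_sort _ half, Nat.sum_antidiagonal_eq_sum_range_succ_mk, harmonic,
    Rat.cast_sum, Finset.sum_div]
  refine sum_congr rfl fun i hi => ?_
  have hi' : i ≤ m := Nat.lt_succ_iff.1 (mem_range.1 hi)
  simp only [half, Nat.cast_sub hi']
  push_cast
  rw [show (i : ℝ) + ((m : ℝ) - i) + 2 = m + 2 by ring]
  field_simp

theorem euler_sum :
    HasSum (fun n : ℕ => (harmonic (n + 1) : ℝ) / ((n : ℝ) + 1) ^ 2)
      (2 * ∑' n : ℕ, 1 / ((n : ℝ) + 1) ^ 3) := by
  have hsum : Summable half :=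
    Summable.of_nonneg_of_le (fun p => by unfold half; positivity) half_le summable_sym
  obtain ⟨S, hS⟩ := summable_harmonic_sq
  have hS' : S = ∑' p, sym p := hS.unique (summable_sym.hasSum.prod_fiberwise hasSum_row)
  have h2 : ∑' p, sym p = 2 * ∑' p, half p := by
    have e : sym = fun p => half p + half p.swap := by
      ext p
      simp only [sym, half, Prod.fst_swap, Prod.snd_swap]
      field_simp
      ring
    have hsw : Summable fun p : ℕ × ℕ => half p.swap := (Equiv.prodComm ℕ ℕ).summable_iff.2 hsum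
    rw [e, hsum.tsum_add hsw, two_mul]
    congr 1
    exact (Equiv.prodComm ℕ ℕ).tsum_eq half
  have h3 : Summable fun n : ℕ => 1 / ((n : ℝ) + 1) ^ 3 := by
    have := (summable_nat_add_iff 1).2 (Real.summable_one_div_nat_pow.2 (show 1 < 3 by norm_num))
    simpa using this
  obtain ⟨Z, hZ⟩ := h3
  have hdiag := hasSum_half_diagonals
  have hshift := (hasSum_nat_add_iff' 1).2 (hS.sub hZ)
  have e : ∀ m : ℕ, (harmonic (m + 1) : ℝ) / ((m : ℝ) + 2) ^ 2 =
      (harmonic (m + 1 + 1) : ℝ) / (((m + 1 : ℕ) : ℝ) + 1) ^ 2 -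
        1 / (((m + 1 : ℕ) : ℝ) + 1) ^ 3 := by
    intro m
    rw [harmonic_succ (m + 1)]
    push_cast
    field_simp
    ring
  have hval := (hdiag.congr_fun fun m => (e m).symm).unique hshift
  rw [hZ.tsum_eq]
  convert hS using 1
  simp [harmonic] at hval
  linarith

theorem euler_sum_zeta :
    ((∑' n : ℕ, (harmonic (n + 1) : ℝ) / ((n : ℝ) + 1) ^ 2 : ℝ) : ℂ) = 2 * riemannZeta 3 := by
  rw [euler_sum.tsum_eq, Complex.ofReal_mul, Complex.ofReal_tsum, show (3 : ℂ) = ((3 : ℕ) : ℂ) by
    norm_num, zeta_nat_eq_tsum_of_gt_one (by norm_num)]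
  have hs : Summable fun n : ℕ => 1 / (n : ℂ) ^ 3 := by
    simpa using
      Complex.summable_ofReal.2 (Real.summable_one_div_nat_pow.2 (show 1 < 3 by norm_num))
  rw [hs.tsum_eq_zero_add]
  simp

end FA.EulerSeries
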